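import Mathlib

/-!
# S17 / W-HM, part (1), finite level (helper140)

`ramificationIdx_under_eq_one`: let `L/ℚ` be a finite Galois extension, `K` an intermediate field
and `P` a maximal ideal of `𝓞 L`.  If the inertia group of `P` in `Gal(L/ℚ)` fixes `K` pointwise,
then the prime of `𝓞 K` below `P` has ramification index `1` over `ℤ`.

Proof: `e(P | ℤ) = #I(P | ℚ)`, `e(P | 𝓞 K) = #I(P | K) = #(I(P | ℚ) ∩ Gal(L/K)) = #I(P | ℚ)` and
`e` is multiplicative in towers.
-/

set_option autoImplicit false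

namespace Fermat.Agent.S17.H140

open NumberField Ideal

/-- If the inertia group of `P` fixes the intermediate field `K`, then the prime of `K` below `P`
is unramified over `ℤ`. -/
theorem ramificationIdx_under_eq_one (L : Type*) [Field L] [NumberField L] [IsGalois ℚ L]
    (K : IntermediateField ℚ L) (P : Ideal (𝓞 L)) [P.IsMaximal]
    (h : ∀ σ ∈ Ideal.inertia Gal(L/ℚ) P, ∀ a ∈ K, σ a = a) :
    (P.under (𝓞 K)).ramificationIdx ℤ = 1 := by
  classical
  let H : Subgroup Gal(L/ℚ) := fixingSubgroup Gal(L/ℚ) (K : Set L)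
  have h1 : IsGaloisGroup H K L := IsGaloisGroup.intermediateField Gal(L/ℚ) ℚ L K
  have h2 : IsGaloisGroup H (𝓞 K) (𝓞 L) := IsGaloisGroup.of_isFractionRing H (𝓞 K) (𝓞 L) K L
  have h3 := card_inertia_eq_ramificationIdxIn (G := H) (P.under (𝓞 K)) P
  have h4 := card_inertia_eq_ramificationIdxIn (G := Gal(L/ℚ)) (P.under ℤ) P
  have h5 := ramificationIdxIn_eq_ramificationIdx (P.under (𝓞 K)) P H
  have h6 := ramificationIdxIn_eq_ramificationIdx (P.under ℤ) P Gal(L/ℚ)
  have h7 := ramificationIdx_tower (R := ℤ) (P.under (𝓞 K)) P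
  have h8 := AddSubgroup.subgroupOf_inertia P.toAddSubgroup H
  have hle : Ideal.inertia Gal(L/ℚ) P ≤ H := by
    intro σ hσ
    rw [mem_fixingSubgroup_iff]
    intro a ha
    exact h σ hσ a ha
  have hcard : Nat.card (Ideal.inertia H P) = Nat.card (Ideal.inertia Gal(L/ℚ) P) := by
    have : Ideal.inertia H P = (Ideal.inertia Gal(L/ℚ) P).subgroupOf H := h8.symm
    rw [this]
    exact Nat.card_congr (Subgroup.subgroupOfEquivOfLe hle).toEquiv
  have hpos : 0 < P.ramificationIdx (𝓞 K) := Ideal.ramificationIdx_pos P (𝓞 K)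
  have heq : P.ramificationIdx ℤ = P.ramificationIdx (𝓞 K) := by
    rw [← h6, ← h4, ← hcard, h3, h5]
  rw [heq] at h7
  have : (P.under (𝓞 K)).ramificationIdx ℤ * P.ramificationIdx (𝓞 K)
      = 1 * P.ramificationIdx (𝓞 K) := by rw [one_mul]; exact h7.symm
  exact Nat.eq_of_mul_eq_mul_right hpos this

/-- Finite-level criterion: if all inertia groups above `ℓ` in `Gal(L/ℚ)` fix `K`, then
`ℓ ∤ disc K`. -/
theorem not_dvd_discr_of_inertia (L : Type*) [Field L] [NumberField L] [IsGalois ℚ L]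
    (K : IntermediateField ℚ L) (ℓ : ℕ) (hℓ : ℓ.Prime)
    (h : ∀ P : Ideal (𝓞 L), P.IsMaximal → (ℓ : 𝓞 L) ∈ P →
      ∀ σ ∈ Ideal.inertia Gal(L/ℚ) P, ∀ a ∈ K, σ a = a) :
    ¬ (ℓ : ℤ) ∣ NumberField.discr K := by
  have hp : Prime (ℓ : ℤ) := Nat.prime_iff_prime_int.mp hℓ
  rw [NumberField.not_dvd_discr_iff_forall_mem K (𝓞 K) hp]
  intro p hpP hmem
  have hp0 : p ≠ ⊥ := by
    intro h0
    rw [h0, Ideal.mem_bot] at hmem
    have : ((ℓ : ℤ) : 𝓞 K) = 0 := hmem
    have h2 : (ℓ : ℤ) = 0 := by exact_mod_cast this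
    exact hℓ.ne_zero (by exact_mod_cast h2)
  have hpmax : p.IsMaximal := hpP.isMaximal hp0
  obtain ⟨P, hPmax, hPover⟩ := Ideal.exists_maximal_ideal_liesOver_of_isIntegral (S := 𝓞 L) p
  have hℓP : (ℓ : 𝓞 L) ∈ P := by
    have h1 : algebraMap (𝓞 K) (𝓞 L) ((ℓ : ℤ) : 𝓞 K) ∈ P := by
      rw [← Ideal.mem_comap]
      have := hPover.over
      rw [Ideal.under_def] at this
      rw [← this]; exact hmem
    simpa using h1
  have key := ramificationIdx_under_eq_one L K P (h P hPmax hℓP)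
  have hunder : P.under (𝓞 K) = p := (hPover.over).symm
  rw [hunder] at key
  exact Ideal.ramificationIdx_eq_one_iff.mp key

end Fermat.Agent.S17.H140
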