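import Fermat.Agent.S17.GDiv.Defs

/-!
# S17 / G-DIV, piece CUSPRAT (helper140)

The cusp `∞ = ord_q` of `F_L = laurentBaseChange L (modularFunctionFieldFull N)` is rational over
every subfield of `L`: the finite value at `∞` of a function with rational `q`-expansion is its
constant term, a rational number.

Also: generalities on `VanishesAt` / `HasValue` used by the pieces ZRAT and PLEXT.
-/

set_option autoImplicit false

noncomputable section

open AlgebraicCurve ModularCurve

namespace Fermat.Agent.S17.H140

open Fermat.Agent.Lib.RR Fermat.Agent.S17.H680 Fermat.Agent.S17.GDiv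

section Cusp

variable {N : ℕ} [NeZero N] {L : Type} [Field L] [Algebra ℚ L]

/-- Membership in the valuation ring of the cusp. -/
theorem mem_cuspL_iff (f : FL N L) :
    f ∈ (cuspL N L).toValuationSubring ↔ 0 ≤ (f : LaurentSeries L).order :=
  Iff.rfl

/-- A function vanishing at the cusp has vanishing constant term. -/
theorem coeff_zero_of_vanishesAt_cusp {f : FL N L} (h : VanishesAt (cuspL N L) f) :
    (f : LaurentSeries L).coeff 0 = 0 := by
  rcases h with rfl | h
  · simp
  have hf0 : f ≠ 0 := by
    rintro rfl
    simp at h
  have hinv : f⁻¹ ∉ (cuspL N L).toValuationSubring := by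
    intro hmem
    have := ord_nonneg_of_mem _ hmem
    rw [Place.ord_inv] at this
    omega
  rw [mem_cuspL_iff, not_le] at hinv
  have hfL : (f : LaurentSeries L) ≠ 0 := by
    intro h0
    apply hf0
    exact Subtype.ext h0
  have hmul : (f : LaurentSeries L) * ((f⁻¹ : FL N L) : LaurentSeries L) = 1 := by
    have : f * f⁻¹ = 1 := mul_inv_cancel₀ hf0
    exact_mod_cast congrArg (Subtype.val) this
  have hinvL : ((f⁻¹ : FL N L) : LaurentSeries L) ≠ 0 := by
    intro h0
    rw [h0, mul_zero] at hmul
    exact zero_ne_one hmul
  have hord := HahnSeries.order_mul hfL hinvL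
  rw [hmul, HahnSeries.order_one] at hord
  have hpos : 0 < (f : LaurentSeries L).order := by omega
  exact HahnSeries.coeff_eq_zero_of_lt_order hpos

/-- **CUSPRAT**: the cusp is rational over every subfield. -/
theorem stmtCUSPRAT : StmtCUSPRAT N L := by
  intro K₁ u c hval
  have h0 := coeff_zero_of_vanishesAt_cusp hval
  have h1 : ((bcQ N L u - algebraMap L (FL N L) c : FL N L) : LaurentSeries L).coeff 0
      = algebraMap ℚ L ((u : LaurentSeries ℚ).coeff 0) - c := by
    have hc : ((algebraMap L (FL N L) c : FL N L) : LaurentSeries L)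
        = algebraMap L (LaurentSeries L) c := rfl
    rw [AddSubgroupClass.coe_sub, HahnSeries.coeff_sub, coe_bcQ, coeffEmb_coeff, hc,
      algebraMap_laurentSeries_eq_single, HahnSeries.coeff_single_same]
  rw [h1, sub_eq_zero] at h0
  rw [← h0, eq_ratCast]
  exact SubfieldClass.ratCast_mem K₁ _

end Cusp

end Fermat.Agent.S17.H140
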