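import Fermat.Agent.S17.H140.UnramDiscr
import Fermat.Agent.S17.H557.HMGlue

/-!
# S17 / W-HM (helper140 + helper557): Hermite–Minkowski in inertia form, second complete proof

`finite_unramified_fields` = the skeleton statement `Skel.finite_unramified_fields`
(`UnramifiedAt` unfolded), assembled from helper557's parts (2), (3) and part (1)
(`not_dvd_discr_of_unramifiedAt`).
-/

set_option autoImplicit false

namespace Fermat.Agent.S17.H140

/-- Part (1) in the shape consumed by helper557's glue. -/
theorem unramDiscrStatement : Fermat.Agent.S17.H557.UnramDiscrStatement := by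
  intro K hK ℓ hℓ h
  exact @not_dvd_discr_of_unramifiedAt K
    (Fermat.Agent.S17.H557.numberField_of_finiteDimensional K hK) ℓ hℓ h

/-- **W-HM** (Hermite–Minkowski, inertia form): finitely many subfields of `ℚ̄` of degree `≤ d`
unramified outside `S`. -/
theorem finite_unramified_fields (S : Finset ℕ) (d : ℕ) :
    {K : IntermediateField ℚ (AlgebraicClosure ℚ) | FiniteDimensional ℚ K ∧
      Module.finrank ℚ K ≤ d ∧
      ∀ ℓ : ℕ, ℓ.Prime → ℓ ∉ S →
        ∀ A : ValuationSubring (AlgebraicClosure ℚ), A.LiesOverPrime ℓ →
          ∀ σ ∈ A.inertiaSubgroupIn ℚ, ∀ a ∈ K, σ a = a}.Finite :=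
  Fermat.Agent.S17.H557.finite_unramified_fields_of unramDiscrStatement S d

end Fermat.Agent.S17.H140
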