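import Fermat.Agent.S17.H140.InertiaFinite
import Fermat.Agent.S14.H714.Trans
import Fermat.Agent.Lib.Cheb.H116.Bridge

/-!
# S17 / W-HM, part (1): lifting finite-level inertia to `Gal(ℚ̄/ℚ)` (helper140)

`exists_inertia_lift`: let `L ⊆ ℚ̄` be a finite Galois extension of `ℚ`, `P` a maximal ideal of
`𝓞 L` above `ℓ` and `τ` an element of the inertia group of `P` in `Gal(L/ℚ)`.  Then there are a
valuation subring `A` of `ℚ̄` above `ℓ` and `σ` in the inertia subgroup of `A` (Prelude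
`ValuationSubring.inertiaSubgroupIn`) with `σ|_L = τ`.

Uses the landed toolkits `S14/H714` (transitivity T1, residual surjectivity T2) and
`Lib/Cheb/H116` (valuation subring above a maximal ideal).
-/

set_option autoImplicit false

namespace Fermat.Agent.S17.H140

open NumberField
open scoped Pointwise

/-- `ℚ̄` -/
abbrev Qb : Type := AlgebraicClosure ℚ

/-- `Gal(ℚ̄/ℚ)` -/
abbrev GQ : Type := Qb ≃ₐ[ℚ] Qb

section

variable (L : IntermediateField ℚ Qb) [NumberField L]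

/-- Elements of `L ∩ A` are fractions of integers of `L` with denominator outside `P`. -/
theorem exists_fraction_of_mem (A : ValuationSubring Qb) (ℓ : ℕ) (hℓ : ℓ.Prime)
    (hAℓ : A.LiesOverPrime ℓ) (P : Ideal (𝓞 L))
    (hA : ∀ x : 𝓞 L, x ∈ P ↔ ((x : L) : Qb) ∈ A.nonunits) (y : L) (hy : (y : Qb) ∈ A) :
    ∃ b s : 𝓞 L, s ∉ P ∧ y * (s : L) = (b : L) := by
  let AL : ValuationSubring L := A.comap (algebraMap L Qb)
  have hmemAL : ∀ z : L, z ∈ AL ↔ (z : Qb) ∈ A := fun z => ValuationSubring.mem_comap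
  have hnonAL : ∀ z : L, z ∈ AL.nonunits ↔ (z : Qb) ∈ A.nonunits := by
    intro z
    rw [ValuationSubring.mem_nonunits_iff_or, ValuationSubring.mem_nonunits_iff_or, hmemAL]
    constructor
    · rintro (h | h)
      · left; rw [h]; rfl
      · right; simpa using h
    · rintro (h | h)
      · left; exact_mod_cast h
      · right; simpa using h
  have hALℓ : AL.LiesOverPrime ℓ := by
    show (ℓ : L) ∈ AL.nonunits
    rw [hnonAL]
    exact_mod_cast hAℓ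
  obtain ⟨b, s, hb, hs, hsA, hxs⟩ :=
    (Fermat.Agent.S54.mem_valuationSubring_iff AL ℓ hℓ hALℓ y).mp ((hmemAL y).mpr hy)
  refine ⟨⟨b, hb⟩, ⟨s, hs⟩, ?_, hxs⟩
  intro hsP
  apply hsA
  rw [hnonAL]
  exact (hA ⟨s, hs⟩).mp hsP

omit [NumberField L] in
/-- Inertia elements preserve `P`. -/
theorem inertia_smul_mem_iff (P : Ideal (𝓞 L)) (τ : L ≃ₐ[ℚ] L)
    (hτ : τ ∈ Ideal.inertia (L ≃ₐ[ℚ] L) P) (x : 𝓞 L) : τ • x ∈ P ↔ x ∈ P := by
  have h1 : τ • x - x ∈ P := hτ x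
  constructor
  · intro h
    have := P.sub_mem h h1
    simpa using this
  · intro h
    have := P.add_mem h1 h
    simpa using this

/-- An inertia element `τ` of `P` maps `L ∩ A` into itself and is congruent to the identity
there. -/
theorem inertia_apply_mem (A : ValuationSubring Qb) (ℓ : ℕ) (hℓ : ℓ.Prime)
    (hAℓ : A.LiesOverPrime ℓ) (P : Ideal (𝓞 L))
    (hA : ∀ x : 𝓞 L, x ∈ P ↔ ((x : L) : Qb) ∈ A.nonunits) (τ : L ≃ₐ[ℚ] L)
    (hτ : τ ∈ Ideal.inertia (L ≃ₐ[ℚ] L) P) (y : L) (hy : (y : Qb) ∈ A) :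
    ((τ y : L) : Qb) ∈ A ∧ ((τ y : L) : Qb) - (y : Qb) ∈ A.nonunits := by
  obtain ⟨b, s, hsP, hys⟩ := exists_fraction_of_mem L A ℓ hℓ hAℓ P hA y hy
  have hintA : ∀ z : 𝓞 L, ((z : L) : Qb) ∈ A := fun z =>
    Fermat.Agent.S54.isIntegral_mem_valuationSubring A
      (Fermat.Agent.Lib.Cheb.H116.isIntegral_coe_ringOfIntegers L z)
  have hτsP : τ • s ∉ P := fun h => hsP ((inertia_smul_mem_iff L P τ hτ s).mp h)
  have hsA : ((s : L) : Qb) ∉ A.nonunits := fun h => hsP ((hA s).mpr h)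
  have hτsA : (((τ • s : 𝓞 L) : L) : Qb) ∉ A.nonunits := fun h => hτsP ((hA _).mpr h)
  have hs0 : ((s : L) : Qb) ≠ 0 := by
    intro h0
    apply hsA
    rw [h0, ValuationSubring.mem_nonunits_iff_or]
    left; rfl
  have hτs0 : (((τ • s : 𝓞 L) : L) : Qb) ≠ 0 := by
    intro h0
    apply hτsA
    rw [h0, ValuationSubring.mem_nonunits_iff_or]
    left; rfl
  have hsinv : (((s : L) : Qb))⁻¹ ∈ A := (Fermat.Agent.S14.H714.inv_mem_of_not_mem_nonunits A hsA).2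
  have hτsinv : ((((τ • s : 𝓞 L) : L) : Qb))⁻¹ ∈ A :=
    (Fermat.Agent.S14.H714.inv_mem_of_not_mem_nonunits A hτsA).2
  -- `y = b / s`, `τ y = τ b / τ s`
  have hy' : (y : Qb) = ((b : L) : Qb) * (((s : L) : Qb))⁻¹ := by
    have : (y : Qb) * ((s : L) : Qb) = ((b : L) : Qb) := by
      have := congrArg (fun z : L => (z : Qb)) hys
      simpa using this
    field_simp
    exact this
  have hτys : τ y * ((τ • s : 𝓞 L) : L) = ((τ • b : 𝓞 L) : L) := by
    rw [Fermat.Agent.Lib.Cheb.H116.coe_smul_ringOfIntegers,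
      Fermat.Agent.Lib.Cheb.H116.coe_smul_ringOfIntegers, ← map_mul, hys]
  have hτy' : ((τ y : L) : Qb) = (((τ • b : 𝓞 L) : L) : Qb) * ((((τ • s : 𝓞 L) : L) : Qb))⁻¹ := by
    have : ((τ y : L) : Qb) * (((τ • s : 𝓞 L) : L) : Qb) = (((τ • b : 𝓞 L) : L) : Qb) := by
      have := congrArg (fun z : L => (z : Qb)) hτys
      simpa using this
    field_simp
    exact this
  refine ⟨?_, ?_⟩
  · rw [hτy']
    exact A.mul_mem _ _ (hintA _) hτsinv
  · -- numerator `(τ b - b) s - b (τ s - s) ∈ P`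
    have hnum : (τ • b - b) * s - b * (τ • s - s) ∈ P :=
      P.sub_mem (P.mul_mem_right _ (hτ b)) (P.mul_mem_left _ (hτ s))
    have hnumA := (hA _).mp hnum
    have hcoes : ∀ u v : 𝓞 L, (((u - v : 𝓞 L) : L) : Qb) = ((u : L) : Qb) - ((v : L) : Qb) :=
      fun u v => rfl
    have hcoem : ∀ u v : 𝓞 L, (((u * v : 𝓞 L) : L) : Qb) = ((u : L) : Qb) * ((v : L) : Qb) :=
      fun u v => rfl
    have key : ((τ y : L) : Qb) - (y : Qb) =
        ((((τ • b - b) * s - b * (τ • s - s) : 𝓞 L) : L) : Qb) *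
          ((((s : L) : Qb))⁻¹ * ((((τ • s : 𝓞 L) : L) : Qb))⁻¹) := by
      rw [hτy', hy', hcoes, hcoem, hcoem, hcoes, hcoes]
      generalize (((τ • b : 𝓞 L) : L) : Qb) = TB at *
      generalize (((τ • s : 𝓞 L) : L) : Qb) = TS at *
      generalize ((b : L) : Qb) = B at *
      generalize ((s : L) : Qb) = S at *
      field_simp
      ring
    rw [key]
    exact Fermat.Agent.S14.H714.nonunits_mul_mem A hnumA (A.mul_mem _ _ hsinv hτsinv)

/-- **Lifting inertia.**  Every element of a finite-level inertia group above `ℓ` is the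
restriction of an element of the inertia subgroup of a valuation subring of `ℚ̄` above `ℓ`. -/
theorem exists_inertia_lift [IsGalois ℚ L] (ℓ : ℕ) (hℓ : ℓ.Prime) (P : Ideal (𝓞 L))
    (hP : P.IsMaximal) (hℓP : (ℓ : 𝓞 L) ∈ P) (τ : L ≃ₐ[ℚ] L)
    (hτ : τ ∈ Ideal.inertia (L ≃ₐ[ℚ] L) P) :
    ∃ (A : ValuationSubring Qb) (σ : GQ), A.LiesOverPrime ℓ ∧ σ ∈ A.inertiaSubgroupIn ℚ ∧
      ∀ x : L, σ (x : Qb) = ((τ x : L) : Qb) := by
  obtain ⟨A, hA⟩ := Fermat.Agent.Lib.Cheb.H116.exists_valuationSubring_over L P hP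
  have hAℓ : (ℓ : Qb) ∈ A.nonunits := by
    have h1 := (hA (ℓ : 𝓞 L)).mp hℓP
    simpa using h1
  have hτinv : τ⁻¹ ∈ Ideal.inertia (L ≃ₐ[ℚ] L) P := Subgroup.inv_mem _ hτ
  -- a lift of `τ` to `ℚ̄`
  let τ' : GQ := τ.liftNormal Qb
  have hτ' : ∀ x : L, τ' (x : Qb) = ((τ x : L) : Qb) := fun x => τ.liftNormal_commutes Qb x
  have hτ'inv : ∀ x : L, τ'⁻¹ (x : Qb) = ((τ⁻¹ x : L) : Qb) := by
    intro x
    have h1 := hτ' (τ⁻¹ x)
    have h2 : τ (τ⁻¹ x) = x := τ.apply_symm_apply x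
    rw [h2] at h1
    rw [← h1]
    exact τ'.symm_apply_apply _
  -- `A` and `τ' • A` have the same trace on `L`
  have htrace : ∀ x ∈ L, x ∈ A ↔ x ∈ τ' • A := by
    intro x hx
    rw [ValuationSubring.mem_pointwise_smul_iff_inv_smul_mem]
    show x ∈ A ↔ τ'⁻¹ x ∈ A
    have hx' := hτ'inv ⟨x, hx⟩
    simp only at hx'
    rw [hx']
    constructor
    · intro h
      exact (inertia_apply_mem L A ℓ hℓ hAℓ P hA τ⁻¹ hτinv ⟨x, hx⟩ h).1
    · intro h
      have := (inertia_apply_mem L A ℓ hℓ hAℓ P hA τ hτ (τ⁻¹ ⟨x, hx⟩) h).1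
      have h2 : τ (τ⁻¹ ⟨x, hx⟩) = ⟨x, hx⟩ := τ.apply_symm_apply _
      rw [h2] at this
      exact this
  have hA'ℓ : (ℓ : Qb) ∈ (τ' • A).nonunits := by
    rw [ValuationSubring.mem_nonunits_iff_or] at hAℓ ⊢
    rcases hAℓ with h | h
    · exact Or.inl h
    · right
      intro hmem
      apply h
      rw [ValuationSubring.mem_pointwise_smul_iff_inv_smul_mem] at hmem
      have : τ'⁻¹ • ((ℓ : Qb))⁻¹ = ((ℓ : Qb))⁻¹ := by
        show τ'⁻¹ ((ℓ : Qb))⁻¹ = _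
        rw [map_inv₀, map_natCast]
      rwa [this] at hmem
  -- T1: move `τ' • A` back to `A` by an element fixing `L`
  obtain ⟨ρ, hρ, hρA⟩ := Fermat.Agent.S14.H714.exists_smul_eq_of_inter_eq (F := L) hℓ hAℓ hA'ℓ htrace
  let σ₁ : GQ := ρ * τ'
  have hσ₁A : σ₁ • A = A := by rw [mul_smul]; exact hρA
  have hρfix : ∀ x : L, ρ (x : Qb) = (x : Qb) := fun x =>
    (IntermediateField.mem_fixingSubgroup_iff L ρ).mp hρ x x.2
  have hσ₁ : ∀ x : L, σ₁ (x : Qb) = ((τ x : L) : Qb) := by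
    intro x
    show ρ (τ' (x : Qb)) = _
    rw [hτ', hρfix]
  -- T2: correct the action on the residue field
  have hσ₁F : ∀ x ∈ L, x ∈ A → σ₁ x - x ∈ A.nonunits := by
    intro x hx hxA
    have h1 := hσ₁ ⟨x, hx⟩
    simp only at h1
    rw [h1]
    exact (inertia_apply_mem L A ℓ hℓ hAℓ P hA τ hτ ⟨x, hx⟩ hxA).2
  obtain ⟨ρ', hρ', hρ'A, hres⟩ :=
    Fermat.Agent.S14.H714.exists_residue_eq (F := L) hℓ hAℓ σ₁ hσ₁A hσ₁F
  have hρ'invA : ρ'⁻¹ • A = A := Fermat.Agent.S14.H714.inv_smul_eq_of_smul_eq hρ'A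
  have hρ'fix : ∀ x : L, ρ' (x : Qb) = (x : Qb) := fun x =>
    (IntermediateField.mem_fixingSubgroup_iff L ρ').mp hρ' x x.2
  have hρ'invfix : ∀ x : L, ρ'⁻¹ (x : Qb) = (x : Qb) := by
    intro x
    have := hρ'fix x
    conv_lhs => rw [← this]
    exact ρ'.symm_apply_apply _
  let σ : GQ := ρ'⁻¹ * σ₁
  have hσA : σ • A = A := by rw [mul_smul, hσ₁A, hρ'invA]
  refine ⟨A, σ, hAℓ, Fermat.Agent.S14.H714.mem_inertiaSubgroupIn_of hσA ?_, ?_⟩
  · intro x hx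
    have h1 : σ x - x = ρ'⁻¹ (σ₁ x - ρ' x) := by
      rw [map_sub]
      congr 1
      exact (ρ'.symm_apply_apply x).symm
    rw [h1]
    apply Fermat.Agent.S14.H714.apply_mem_nonunits_of_smul_eq hρ'invA
    have h2 := hres x hx
    have h3 : σ₁ x - ρ' x = -(ρ' x - σ₁ x) := by ring
    rw [h3]
    exact Fermat.Agent.S14.H714.nonunits_neg_mem A h2
  · intro x
    show ρ'⁻¹ (σ₁ (x : Qb)) = _
    rw [hσ₁, hρ'invfix]

end

end Fermat.Agent.S17.H140
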