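import Fermat.Agent.S17.H140.PlExtAbs
import Fermat.Agent.S17.GDiv.Defs
import Fermat.Agent.S18.H739.ModFinite
import Fermat.Agent.S18.H516.GaussBC

/-!
# S17 / G-DIV, piece PLEXT (helper140)

`StmtPLEXT`: a place of `F_L` is determined by the values it gives to the functions with rational
`q`-expansion.  Instance of the abstract `place_ext` (`PlExtAbs.lean`) for
`F₀ = modularFunctionFieldFull N`, `β = bcQ`, `x₀ = j`.
-/

set_option autoImplicit false
set_option linter.unusedSectionVars false

noncomputable section

open AlgebraicCurve ModularCurve Polynomial IntermediateField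

namespace Fermat.Agent.S17.H140

open Fermat.Agent.Lib.RR Fermat.Agent.S17.GDiv Fermat.Agent.S37.H100

section Hom

variable (N : ℕ) [NeZero N] (L : Type) [Field L] [Algebra ℚ L]

/-- `bcQ` as a ring homomorphism. -/
def bcQHom : modularFunctionFieldFull N →+* FL N L where
  toFun := bcQ N L
  map_one' := by
    apply Subtype.ext
    simp
  map_mul' x y := by
    apply Subtype.ext
    simp
  map_zero' := by
    apply Subtype.ext
    simp
  map_add' x y := by
    apply Subtype.ext
    simp

@[simp]
theorem bcQHom_apply (u : modularFunctionFieldFull N) : bcQHom N L u = bcQ N L u := rfl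

theorem bcQ_algebraMap (r : ℚ) (h : algebraMap ℚ (LaurentSeries ℚ) r ∈ modularFunctionFieldFull N) :
    bcQ N L ⟨algebraMap ℚ (LaurentSeries ℚ) r, h⟩ = algebraMap L (FL N L) (algebraMap ℚ L r) := by
  apply Subtype.ext
  exact Fermat.Agent.S18.H516.coeffEmb_algebraMap' L r

/-- `t = j` is not constant. -/
theorem tL_ne_algebraMap (c : L) : tL N L ≠ algebraMap L (FL N L) c := by
  intro h
  have h1 : (coeffEmb L jq).order < 0 := by
    have h : (coeffEmb L jq).order ≤ -1 :=
      HahnSeries.order_le_of_coeff_ne_zero (by
        rw [coeffEmb_coeff, coeff_jq_neg_one, map_one]; exact one_ne_zero)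
    omega
  have h2 : ((tL N L : FL N L) : LaurentSeries L) = algebraMap L (LaurentSeries L) c := by
    rw [h]; rfl
  have h3 : ((tL N L : FL N L) : LaurentSeries L) = coeffEmb L jq := rfl
  rw [h3] at h2
  rw [h2, Fermat.Agent.S17.H680.order_algebraMap_laurent] at h1
  exact lt_irrefl _ h1

/-- `F_L` is generated by `L` and the functions with rational `q`-expansion. -/
theorem adjoin_range_bcQHom :
    IntermediateField.adjoin L (Set.range (bcQHom N L)) = ⊤ := by
  have hS : Set.range (bcQHom N L)
      = (Subtype.val : FL N L → LaurentSeries L) ⁻¹'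
          (⇑(coeffEmb L) '' ((modularFunctionFieldFull N : IntermediateField ℚ (LaurentSeries ℚ)) :
            Set (LaurentSeries ℚ))) := by
    ext x
    constructor
    · rintro ⟨u, rfl⟩
      exact ⟨u.1, u.2, rfl⟩
    · rintro ⟨w, hw, h⟩
      exact ⟨⟨w, hw⟩, Subtype.ext h⟩
  rw [hS]
  exact adjoin_coe_preimage_eq_top (L := L)
    (⇑(coeffEmb L) '' ((modularFunctionFieldFull N : IntermediateField ℚ (LaurentSeries ℚ)) :
            Set (LaurentSeries ℚ)))

end Hom

section Main

variable {N : ℕ} [NeZero N] {L : Type} [Field L] [Algebra ℚ L] [CharZero L] [FF1 L (FL N L)]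

/-- **PLEXT**: a place is determined by its values on the functions with rational
`q`-expansion. -/
theorem stmtPLEXT : StmtPLEXT N L := by
  intro P P' H
  have htr := Fermat.Agent.S18.H739.transcendental_jC ℚ N
  have hfin := Fermat.Agent.S18.H739.finiteDimensional_adjoin_jC ℚ N
    (fun p hp _ => Nat.cast_ne_zero.mpr hp.ne_zero)
  have := hfin
  exact @place_ext ℚ L (FL N L) (modularFunctionFieldFullC ℚ N) _ _ _ _ _
    (SubalgebraClass.toAlgebra (modularFunctionFieldFullC ℚ N)) _
    (bcQHom N L) P P' (deg_eq_one P) (deg_eq_one P') _ _ htr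
    (Algebra.IsAlgebraic.of_finite _ _)
    (fun a => Subtype.ext (Fermat.Agent.S18.H516.coeffEmb_algebraMap' L a))
    (adjoin_range_bcQHom N L)
    (tL_ne_algebraMap N L)
    H

end Main

end Fermat.Agent.S17.H140
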