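import Mathlib

/-!
# S17 / G-DIV, piece ZRAT, algebraic core (helper140; Mathlib only)

* `exists_dependence` : in a field `F` algebraic over `K(x)`, any two elements `u, g` satisfy a
  non-trivial polynomial relation `G(u, g) = 0`, `G ∈ K[Y][X]`.
* `exists_root_of_relation` : "reduction of a relation at a place": if `G(u, f) = 0` in a field
  `F`, `f ≠ 0`, and `ev : O → L` is a ring homomorphism on a subring `O ∋ u, f` with `ev f = 0`,
  then `ev u` is a root of a non-zero polynomial with coefficients in `K`.
-/

set_option autoImplicit false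

noncomputable section

open Polynomial IntermediateField

namespace Fermat.Agent.S17.H140

section Dependence

variable {K F : Type*} [Field K] [Field F] [Algebra K F]

/-- Two elements of a field of transcendence degree one over `K` are algebraically dependent:
there is a non-zero `G ∈ K[Y][X]` with `G(u, g) = 0`. -/
theorem exists_dependence {x : F} (hx : Transcendental K x)
    (halg : Algebra.IsAlgebraic K⟮x⟯ F) (u g : F) :
    ∃ G : Polynomial (Polynomial K), G ≠ 0 ∧
      G.eval₂ ((aeval u : Polynomial K →ₐ[K] F) : Polynomial K →+* F) g = 0 := by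
  classical
  by_cases hu : IsAlgebraic K u
  · obtain ⟨h, h0, hh⟩ := hu
    refine ⟨C h, by simpa using h0, ?_⟩
    rw [eval₂_C]
    exact hh
  · -- `u` is transcendental: exchange
    have hu' : Transcendental K u := hu
    have hxu : IsAlgebraic (Algebra.adjoin K {u}) x :=
      IsAlgebraic.adjoin_singleton hx hu' (isAlgebraic_adjoin_iff.mp (halg.isAlgebraic u))
    have hgx : IsAlgebraic (Algebra.adjoin K {x}) g :=
      isAlgebraic_adjoin_iff.mp (halg.isAlgebraic g)
    have hg : IsAlgebraic (Algebra.adjoin K {u}) g := by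
      refine IsAlgebraic.adjoin_of_forall_isAlgebraic (s := {x}) (t := {u}) ?_ hgx
      rintro y ⟨hy, -⟩
      rw [Set.mem_singleton_iff] at hy
      rw [hy]
      exact hxu
    obtain ⟨p, hp0, hp⟩ := hg
    let e := algEquivOfTranscendental K u hu'
    refine ⟨p.map (e.symm : Algebra.adjoin K {u} →+* Polynomial K), ?_, ?_⟩
    · rwa [Ne, Polynomial.map_eq_zero_iff e.symm.injective]
    · rw [eval₂_map]
      have hcomp : ((aeval u : Polynomial K →ₐ[K] F) : Polynomial K →+* F).comp
          (e.symm : Algebra.adjoin K {u} →+* Polynomial K)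
            = algebraMap (Algebra.adjoin K {u}) F := by
        ext a
        obtain ⟨q, rfl⟩ := e.surjective a
        simp only [RingHom.coe_comp, RingHom.coe_coe, Function.comp_apply,
          AlgEquiv.symm_apply_apply]
        rw [algEquivOfTranscendental_apply]
        simp [Polynomial.aeval_def, Polynomial.eval₂_eq_sum_range]
      rw [hcomp]
      exact hp

end Dependence

section Reduction

variable {K F L : Type*} [Field K] [Field F] [Field L]

/-- Reduction of an algebraic relation at a place.  `O ⊆ F` a subring with a ring homomorphism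
`ev : O → L`; `φ : K → F` with values in `O`; `u, f ∈ O`, `f ≠ 0`, `ev f = 0`.
If `G(u, f) = 0` for a non-zero `G ∈ K[Y][X]`, then `ev u` is a root of a non-zero polynomial
with coefficients in `K` (via `ev ∘ φ`). -/
theorem exists_root_of_relation (O : Subring F) (ev : O →+* L) (φ : K →+* F)
    (hφ : ∀ a, φ a ∈ O) {u f : F} (hu : u ∈ O) (hf : f ∈ O) (hf0 : f ≠ 0)
    (hev : ev ⟨f, hf⟩ = 0)
    {G : Polynomial (Polynomial K)} (hG : G ≠ 0)
    (hrel : G.eval₂ (eval₂RingHom φ u) f = 0) :
    ∃ h : Polynomial K, h ≠ 0 ∧ h.eval₂ (ev.comp (φ.codRestrict O hφ)) (ev ⟨u, hu⟩) = 0 := by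
  classical
  obtain ⟨G', hGG', hndvd⟩ := exists_eq_pow_rootMultiplicity_mul_and_not_dvd G hG 0
  rw [map_zero, sub_zero] at hGG' hndvd
  set k := rootMultiplicity 0 G
  have hcoeff : G'.coeff 0 ≠ 0 := by
    intro h0
    exact hndvd (X_dvd_iff.mpr h0)
  -- the evaluation homomorphisms with values in `O`
  let ψ : Polynomial K →+* O := eval₂RingHom (φ.codRestrict O hφ) ⟨u, hu⟩
  let Ψ : Polynomial (Polynomial K) →+* O := eval₂RingHom ψ ⟨f, hf⟩
  have hψ : O.subtype.comp ψ = eval₂RingHom φ u := by
    apply Polynomial.ringHom_ext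
    · intro a; simp [ψ]
    · simp [ψ]
  have hΨ : O.subtype.comp Ψ = eval₂RingHom (eval₂RingHom φ u) f := by
    apply Polynomial.ringHom_ext
    · intro a
      have := congrArg (fun g : Polynomial K →+* F => g a) hψ
      simpa [Ψ] using this
    · simp [Ψ]
  have hΨG : Ψ G = 0 := by
    apply Subtype.ext
    have := congrArg (fun g : Polynomial (Polynomial K) →+* F => g G) hΨ
    simp only [RingHom.coe_comp, Function.comp_apply, Subring.subtype_apply] at this
    rw [this]
    exact hrel
  have hΨG' : Ψ G' = 0 := by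
    rw [hGG', map_mul, map_pow] at hΨG
    have hX : Ψ X = ⟨f, hf⟩ := by simp [Ψ]
    rw [hX] at hΨG
    have hfO : (⟨f, hf⟩ : O) ≠ 0 := by
      intro h
      exact hf0 (congrArg Subtype.val h)
    exact (mul_eq_zero.mp hΨG).resolve_left (pow_ne_zero _ hfO)
  -- apply `ev`
  have hevΨ : ev.comp Ψ = (eval₂RingHom (ev.comp (φ.codRestrict O hφ)) (ev ⟨u, hu⟩)).comp
      (Polynomial.evalRingHom (0 : Polynomial K)) := by
    apply Polynomial.ringHom_ext
    · intro a
      simp only [RingHom.coe_comp, Function.comp_apply, coe_evalRingHom, eval_C, Ψ,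
        coe_eval₂RingHom, eval₂_C, ψ]
      exact hom_eval₂ a _ ev _
    · simp [Ψ, hev]
  refine ⟨G'.coeff 0, hcoeff, ?_⟩
  have := congrArg (fun g : Polynomial (Polynomial K) →+* L => g G') hevΨ
  simp only [RingHom.coe_comp, Function.comp_apply, hΨG', map_zero, coe_evalRingHom] at this
  rw [← coeff_zero_eq_eval_zero] at this
  exact this.symm

end Reduction

end Fermat.Agent.S17.H140
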