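import Fermat.Agent.S17.H140.PlExtCore
import Fermat.Agent.S17.H140.ZRatAlg

/-!
# S17 / G-DIV, piece PLEXT, abstract form (helper140)

Setting: `F/L` a function field all of whose places have degree one, `F₀/k` a field of
transcendence degree one over a field `k` of characteristic zero (`k = ℚ` in the application),
`β : F₀ → F` a ring homomorphism such that `F` is generated by `L` and `β F₀`.

`place_ext`: a place `P` of `F/L` is determined by the values `(β u)(P)`, `u ∈ F₀`.

Proof.  Let `O₀ = {u ∈ F₀ : β u ∈ O_P}` and `R₀ = L[β O₀] ⊆ O_P ∩ O_P'`.  The two residue maps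
agree on `R₀`, `Frac R₀ = F`, and the point of `R₀` is regular (criterion `eq_of_regular`):
* if `O₀ ≠ F₀` (the place is algebraic), `π` = a uniformiser of `O₀`; the values `d = u(P)` are
  algebraic over `k`, `p = minpoly d`, `p(u) ∈ π O₀`, and `p'(d) ≠ 0`;
* if `O₀ = F₀` (the place is generic), `π = x₀ - x₀(P)`; `p ∈ k[x₀][X]` of minimal degree with
  `p(u) = 0`, and `p'(u) ≠ 0`.
-/

set_option autoImplicit false
set_option linter.unusedSectionVars false

noncomputable section

open AlgebraicCurve Polynomial IntermediateField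

namespace Fermat.Agent.S17.H140

open Fermat.Agent.Lib.RR Fermat.Agent.S37.H100

section Adjoin

variable {L E : Type*} [Field L] [Field E] [Algebra L E]

/-- Inside the field generated by `S`, the set `S` generates everything. -/
theorem adjoin_coe_preimage_eq_top (S : Set E) :
    IntermediateField.adjoin L
      ((Subtype.val : ↥(IntermediateField.adjoin L S) → E) ⁻¹' S) = ⊤ := by
  rw [eq_top_iff]
  rintro ⟨y, hy⟩ -
  induction hy using IntermediateField.adjoin_induction with
  | mem z hz => exact IntermediateField.subset_adjoin L _ hz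
  | algebraMap r => exact IntermediateField.algebraMap_mem _ r
  | add a b ha hb iha ihb => exact add_mem iha ihb
  | inv a ha iha => exact inv_mem iha
  | mul a b ha hb iha ihb => exact mul_mem iha ihb

end Adjoin

section Main

variable {k L F F₀ : Type*} [Field k] [Field L] [Field F] [Field F₀]
  [Algebra L F] [Algebra k F₀] [Algebra k L]
variable (β : F₀ →+* F) (P P' : Place L F) (hP : P.deg = 1) (hP' : P'.deg = 1)

/-- The functions `β u` which are regular at `P`. -/
def regSet : Set F := {x | x ∈ P.toValuationSubring ∧ ∃ u, β u = x}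

/-- `R₀ = L[O₀]`. -/
def regAlg : Subalgebra L F := Algebra.adjoin L (regSet β P)

theorem map_mem_regAlg {u : F₀} (hu : β u ∈ P.toValuationSubring) : β u ∈ regAlg β P :=
  Algebra.subset_adjoin ⟨hu, u, rfl⟩

theorem regAlg_le {x : F} (hx : x ∈ regAlg β P) : x ∈ P.toValuationSubring := by
  induction hx using Algebra.adjoin_induction with
  | mem s hs => exact hs.1
  | algebraMap r => exact P.algebraMap_mem' r
  | add x y _ _ hx hy => exact add_mem hx hy
  | mul x y _ _ hx hy => exact mul_mem hx hy

include hP hP' in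
variable {β P P'} in
theorem regAlg_val (H : ∀ u c, Val P (β u) c → Val P' (β u) c)
    {x : F} (hx : x ∈ regAlg β P) : ∃ c, Val P x c ∧ Val P' x c := by
  induction hx using Algebra.adjoin_induction with
  | mem s hs =>
    obtain ⟨hs1, u, rfl⟩ := hs
    obtain ⟨c, hc⟩ := Val.exists_of_mem hP hs1
    exact ⟨c, hc, H u c hc⟩
  | algebraMap r => exact ⟨r, Val.algebraMap P r, Val.algebraMap P' r⟩
  | add x y _ _ hx hy =>
    obtain ⟨c, hc, hc'⟩ := hx
    obtain ⟨d, hd, hd'⟩ := hy
    exact ⟨c + d, hc.add hP hd, hc'.add hP' hd'⟩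
  | mul x y _ _ hx hy =>
    obtain ⟨c, hc, hc'⟩ := hx
    obtain ⟨d, hd, hd'⟩ := hy
    exact ⟨c * d, hc.mul hP hd, hc'.mul hP' hd'⟩

/-- The inclusion `R₀ ⊆ O_P`. -/
def regIncl : regAlg β P →+* P.toValuationSubring where
  toFun x := ⟨x.1, regAlg_le β P x.2⟩
  map_one' := rfl
  map_mul' _ _ := rfl
  map_zero' := rfl
  map_add' _ _ := rfl

/-- The residue map on `R₀`. -/
def regEv : regAlg β P →ₐ[L] L where
  toRingHom := (evPlace P hP).comp (regIncl β P)
  commutes' c := evPlace_algebraMap P hP c

theorem regEv_val (x : regAlg β P) : Val P (x : F) (regEv β P hP x) :=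
  Val.of_evPlace hP ⟨x.1, regAlg_le β P x.2⟩

variable {β P hP} in
theorem regEv_eq {x : regAlg β P} {c : L} (h : Val P (x : F) c) : regEv β P hP x = c :=
  Val.unique hP (regEv_val β P hP x) h

include hP' in
variable {β P P' hP} in
theorem regEv_val' (H : ∀ u c, Val P (β u) c → Val P' (β u) c)
    (x : regAlg β P) : Val P' (x : F) (regEv β P hP x) := by
  obtain ⟨c, hc, hc'⟩ := regAlg_val hP hP' H x.2
  rwa [regEv_eq hc]

/-- `Frac R₀ = F`. -/
theorem exists_div_regAlg (hgenF : IntermediateField.adjoin L (Set.range β) = ⊤) (x : F) :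
    ∃ a b : regAlg β P, (b : F) ≠ 0 ∧ x = (a : F) / (b : F) := by
  -- the intermediate field generated by `regSet P` is everything
  have hgen : ∀ u : F₀, β u ∈ IntermediateField.adjoin L (regSet β P) := by
    intro u
    by_cases hu : β u ∈ P.toValuationSubring
    · exact IntermediateField.subset_adjoin L _ ⟨hu, u, rfl⟩
    · have hinv : (β u)⁻¹ ∈ P.toValuationSubring :=
        (P.toValuationSubring.mem_or_inv_mem (β u)).resolve_left hu
      have h1 : β u⁻¹ ∈ IntermediateField.adjoin L (regSet β P) :=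
        IntermediateField.subset_adjoin L _ ⟨by rw [map_inv₀]; exact hinv, u⁻¹, rfl⟩
      have h2 := inv_mem h1
      rwa [map_inv₀, inv_inv] at h2
  have hle : IntermediateField.adjoin L (Set.range β)
      ≤ IntermediateField.adjoin L (regSet β P) := by
    rw [IntermediateField.adjoin_le_iff]
    rintro _ ⟨u, rfl⟩
    exact hgen u
  have hx : x ∈ IntermediateField.adjoin L (regSet β P) := by
    apply hle
    rw [hgenF]
    exact IntermediateField.mem_top
  obtain ⟨r, hr, s, hs, hxrs⟩ := IntermediateField.mem_adjoin_iff_div.mp hx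
  by_cases hs0 : s = 0
  · refine ⟨⟨0, zero_mem _⟩, ⟨1, one_mem _⟩, one_ne_zero, ?_⟩
    rw [hxrs, hs0, div_zero, zero_div]
  · exact ⟨⟨r, hr⟩, ⟨s, hs⟩, hs0, hxrs⟩

/-- The element `β u` of `R₀`. -/
def regElt (u : F₀) (hu : β u ∈ P.toValuationSubring) : regAlg β P :=
  ⟨β u, map_mem_regAlg β P hu⟩

/-- `k → R₀`. -/
def regConst : k →+* regAlg β P := (algebraMap L (regAlg β P)).comp (algebraMap k L)

theorem regEv_comp_regConst :
    ((regEv β P hP : regAlg β P →ₐ[L] L) : regAlg β P →+* L).comp (regConst β P)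
      = algebraMap k L := by
  ext a
  simp only [regConst, RingHom.coe_comp, RingHom.coe_coe, Function.comp_apply]
  rw [AlgHom.commutes, Algebra.algebraMap_self_apply]

theorem regConst_sub_mem (π : regAlg β P) (a : k) :
    regConst β P a - algebraMap L (regAlg β P) (regEv β P hP (regConst β P a))
      ∈ regIdeal (regEv β P hP) π := by
  have : regEv β P hP (regConst β P a) = algebraMap k L a := by
    have := congrArg (fun f : k →+* L => f a) (regEv_comp_regConst β P hP)
    simpa using this
  rw [this]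
  simp only [regConst, RingHom.coe_comp, Function.comp_apply, sub_self]
  exact zero_mem _

section Cases

variable [CharZero k] {x₀ : F₀} (hx₀ : Transcendental k x₀)
  (halg : Algebra.IsAlgebraic k⟮x₀⟯ F₀)
  (hβk : ∀ a : k, β (algebraMap k F₀ a) = algebraMap L F (algebraMap k L a))

include hβk in
theorem coe_eval_map_regConst (p : Polynomial k) (u : F₀) (hu : β u ∈ P.toValuationSubring) :
    (((p.map (regConst β P)).eval (regElt β P u hu) : regAlg β P) : F) = β (aeval u p) := by
  have h1 : (((p.map (regConst β P)).eval (regElt β P u hu) : regAlg β P) : F)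
      = (regAlg β P).val.toRingHom ((p.map (regConst β P)).eval (regElt β P u hu)) := rfl
  rw [h1, Polynomial.eval_map, Polynomial.hom_eval₂, Polynomial.aeval_def, Polynomial.hom_eval₂]
  congr 1
  ext a
  simp only [regConst, RingHom.coe_comp, Function.comp_apply]
  rw [hβk]
  rfl

include hx₀ halg hβk in
/-- Values at an algebraic place are algebraic over `k`. -/
theorem isAlgebraic_regEv {π₀ : F₀} (hπ₀P : 0 < P.ord (β π₀))
    (u : F₀) (hu : β u ∈ P.toValuationSubring) :
    IsAlgebraic k (regEv β P hP (regElt β P u hu)) := by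
  obtain ⟨G, hG0, hG⟩ := exists_dependence hx₀ halg u π₀
  set φ : k →+* F := (algebraMap L F).comp (algebraMap k L) with hφdef
  have hcomp : β.comp ((aeval u : Polynomial k →ₐ[k] F₀) : Polynomial k →+* F₀)
      = eval₂RingHom φ (β u) := by
    apply Polynomial.ringHom_ext
    · intro a
      simp only [RingHom.coe_comp, RingHom.coe_coe, Function.comp_apply, aeval_C,
        coe_eval₂RingHom, eval₂_C, hφdef]
      exact hβk a
    · simp
  have hrel : G.eval₂ (eval₂RingHom φ (β u)) (β π₀) = 0 := by
    have := hom_eval₂ G ((aeval u : Polynomial k →ₐ[k] F₀) : Polynomial k →+* F₀) β π₀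
    rw [hG, map_zero, hcomp] at this
    exact this.symm
  have hφO : ∀ a, φ a ∈ P.toValuationSubring.toSubring := fun a => P.algebraMap_mem' _
  have hπO : β π₀ ∈ P.toValuationSubring.toSubring := mem_of_ord_nonneg P hπ₀P.le
  have hπ0 : β π₀ ≠ 0 := by
    intro h
    rw [h] at hπ₀P
    simp at hπ₀P
  have hevπ : evPlace P hP ⟨β π₀, hπO⟩ = 0 := by
    rw [evPlace_eq_zero_iff_ord]
    exact Or.inr hπ₀P
  obtain ⟨h, h0, hh⟩ := exists_root_of_relation P.toValuationSubring.toSubring
    (evPlace P hP) φ hφO hu hπO hπ0 hevπ hG0 hrel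
  have hevφ : (evPlace P hP).comp (φ.codRestrict P.toValuationSubring.toSubring hφO)
      = algebraMap k L := by
    ext a
    exact evPlace_algebraMap P hP (algebraMap k L a)
  rw [hevφ] at hh
  exact ⟨h, h0, hh⟩

include hx₀ halg hβk in
/-- KEY, algebraic places. -/
theorem key_algebraic (hne : ∃ u₀ : F₀, β u₀ ∉ P.toValuationSubring) :
    ∃ π : regAlg β P, (π : F) ≠ 0 ∧ regEv β P hP π = 0 ∧
      ∀ (u : F₀) (hu : β u ∈ P.toValuationSubring),
        regElt β P u hu - algebraMap L (regAlg β P) (regEv β P hP (regElt β P u hu))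
          ∈ regIdeal (regEv β P hP) π := by
  classical
  obtain ⟨u₀, hu₀⟩ := hne
  have hu₀0 : u₀ ≠ 0 := by
    rintro rfl
    rw [map_zero] at hu₀
    exact hu₀ (zero_mem _)
  have hu₀neg : P.ord (β u₀) < 0 := by
    by_contra h
    rw [not_lt] at h
    exact hu₀ (mem_of_ord_nonneg P h)
  have hex : ∃ n : ℕ, 0 < n ∧ ∃ v : F₀, v ≠ 0 ∧ P.ord (β v) = n := by
    refine ⟨(P.ord (β u₀⁻¹)).toNat, ?_, u₀⁻¹, inv_ne_zero hu₀0, ?_⟩
    · rw [map_inv₀, Place.ord_inv]
      omega
    · rw [map_inv₀, Place.ord_inv]
      omega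
  obtain ⟨hn₀, π₀, hπ₀0, hπ₀⟩ := Nat.find_spec hex
  have hmin : ∀ v : F₀, v ≠ 0 → 0 < P.ord (β v) → P.ord (β π₀) ≤ P.ord (β v) := by
    intro v hv hpos
    have := Nat.find_min' hex ⟨by omega, v, hv, (Int.toNat_of_nonneg hpos.le).symm⟩
    omega
  have hπ₀P : 0 < P.ord (β π₀) := by rw [hπ₀]; exact_mod_cast hn₀
  have hβπ₀ : β π₀ ≠ 0 := by
    intro h
    rw [h] at hπ₀P
    simp at hπ₀P
  set π : regAlg β P := regElt β P π₀ (mem_of_ord_nonneg P hπ₀P.le) with hπdef
  have hπ : regEv β P hP π = 0 := regEv_eq (Val.zero_iff.mpr (Or.inr hπ₀P))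
  refine ⟨π, hβπ₀, hπ, ?_⟩
  intro u hu
  set υ : regAlg β P := regElt β P u hu with hυdef
  set d : L := regEv β P hP υ with hddef
  have hd_int : IsIntegral k d :=
    (isAlgebraic_regEv β P hP hx₀ halg hβk hπ₀P u hu).isIntegral
  set p : Polynomial k := minpoly k d with hpdef
  have hsep : p.Separable := (minpoly.irreducible hd_int).separable
  have hder : aeval d (derivative p) ≠ 0 :=
    hsep.aeval_derivative_ne_zero (minpoly.aeval k d)
  have hval : regEv β P hP ((p.map (regConst β P)).eval υ) = 0 := by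
    have h1 : regEv β P hP ((p.map (regConst β P)).eval υ)
        = ((regEv β P hP : regAlg β P →ₐ[L] L) : regAlg β P →+* L)
            ((p.map (regConst β P)).eval υ) := rfl
    rw [h1, Polynomial.eval_map, Polynomial.hom_eval₂, regEv_comp_regConst]
    exact minpoly.aeval k d
  have hβa : Val P (β (aeval u p)) 0 := by
    have := regEv_val β P hP ((p.map (regConst β P)).eval υ)
    rwa [hval, coe_eval_map_regConst β P hβk] at this
  -- `w = p(u) / π₀ ∈ O₀`
  have hw : β (aeval u p * π₀⁻¹) ∈ P.toValuationSubring := by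
    rcases Val.zero_iff.mp hβa with h0 | hpos
    · rw [map_mul, h0, zero_mul]
      exact zero_mem _
    · have ha0 : aeval u p ≠ 0 := by
        intro h
        rw [h, map_zero] at hpos
        simp at hpos
      have hβa0 : β (aeval u p) ≠ 0 := by
        intro h
        rw [h] at hpos
        simp at hpos
      apply mem_of_ord_nonneg
      rw [map_mul, map_inv₀, P.ord_mul hβa0 (inv_ne_zero hβπ₀), Place.ord_inv]
      have := hmin _ ha0 hpos
      omega
  refine sub_mem_regIdeal_of_taylor (A := k) (regEv β P hP) π hπ (regConst β P)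
    (regConst_sub_mem β P hP π) p υ ?_ ?_
  · refine ⟨1, regElt β P _ hw, by simp, ?_⟩
    apply Subtype.ext
    rw [mul_one]
    have h2 : ((π * regElt β P _ hw : regAlg β P) : F) = β π₀ * β (aeval u p * π₀⁻¹) := rfl
    rw [h2, coe_eval_map_regConst β P hβk, ← map_mul, mul_comm (aeval u p), ← mul_assoc,
      mul_inv_cancel₀ hπ₀0, one_mul]
  · rw [regEv_comp_regConst, Polynomial.derivative_map, Polynomial.eval_map]
    exact hder

/-- `β` as a homomorphism into `R₀`, when all `β u` are regular at `P`. -/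
def toReg (hall : ∀ u : F₀, β u ∈ P.toValuationSubring) : F₀ →+* regAlg β P where
  toFun u := regElt β P u (hall u)
  map_one' := Subtype.ext (map_one β)
  map_mul' x y := Subtype.ext (map_mul β x y)
  map_zero' := Subtype.ext (map_zero β)
  map_add' x y := Subtype.ext (map_add β x y)

include hβk in
theorem toReg_comp_algebraMap (hall : ∀ u : F₀, β u ∈ P.toValuationSubring) :
    (toReg β P hall).comp (algebraMap k F₀) = regConst β P := by
  ext a
  exact hβk a

include hx₀ halg hβk in
/-- KEY, generic places. -/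
theorem key_generic (hall : ∀ u : F₀, β u ∈ P.toValuationSubring)
    (hx₀L : ∀ c : L, β x₀ ≠ algebraMap L F c) :
    ∃ π : regAlg β P, (π : F) ≠ 0 ∧ regEv β P hP π = 0 ∧
      ∀ (u : F₀) (hu : β u ∈ P.toValuationSubring),
        regElt β P u hu - algebraMap L (regAlg β P) (regEv β P hP (regElt β P u hu))
          ∈ regIdeal (regEv β P hP) π := by
  classical
  set toR : F₀ →+* regAlg β P := toReg β P hall with htoR
  set e : regAlg β P →ₐ[L] L := regEv β P hP with he
  set ε : F₀ →+* L := (e : regAlg β P →+* L).comp toR with hε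
  have hεinj : Function.Injective ε := ε.injective
  set τ : regAlg β P := toR x₀ with hτ
  set c : L := e τ with hc
  set π : regAlg β P := τ - algebraMap L (regAlg β P) c with hπdef
  have hπ : e π = 0 := by
    rw [hπdef, map_sub, AlgHom.commutes, Algebra.algebraMap_self_apply, sub_self]
  have hπ0 : (π : F) ≠ 0 := by
    have h1 : (π : F) = β x₀ - algebraMap L F c := rfl
    rw [h1]
    exact sub_ne_zero.mpr (hx₀L c)
  refine ⟨π, hπ0, hπ, ?_⟩
  intro u hu
  have hυ : regElt β P u hu = toR u := rfl
  rw [hυ]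
  set f : Polynomial k →+* F₀ := ((aeval x₀ : Polynomial k →ₐ[k] F₀) : Polynomial k →+* F₀)
    with hf
  -- a relation of minimal degree
  have hex : ∃ n : ℕ, ∃ G : Polynomial (Polynomial k), G ≠ 0 ∧ G.eval₂ f u = 0 ∧
      G.natDegree = n := by
    obtain ⟨G, hG0, hG⟩ := exists_dependence hx₀ halg x₀ u
    exact ⟨_, G, hG0, hG, rfl⟩
  obtain ⟨p, hp0, hpu, hpn⟩ := Nat.find_spec hex
  have hmin : ∀ G : Polynomial (Polynomial k), G ≠ 0 → G.eval₂ f u = 0 →
      p.natDegree ≤ G.natDegree := by
    intro G hG0 hG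
    rw [hpn]
    exact Nat.find_min' hex ⟨G, hG0, hG, rfl⟩
  have hdeg : p.natDegree ≠ 0 := by
    intro h0
    obtain ⟨q, hq⟩ : ∃ q, p = C q := ⟨_, Polynomial.eq_C_of_natDegree_eq_zero h0⟩
    rw [hq, eval₂_C] at hpu
    have hq0 : q = 0 := by
      by_contra hne
      exact hx₀ ⟨q, hne, hpu⟩
    rw [hq0, map_zero] at hq
    exact hp0 hq
  have hder0 : derivative p ≠ 0 := fun h =>
    hdeg (Polynomial.derivative_eq_zero.mp h)
  have hderlt : (derivative p).natDegree < p.natDegree := Polynomial.natDegree_derivative_lt hdeg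
  have hderu : (derivative p).eval₂ f u ≠ 0 := fun h =>
    absurd (hmin _ hder0 h) (not_le.mpr hderlt)
  set θ : Polynomial k →+* regAlg β P := toR.comp f with hθdef
  have hθeval : ∀ q : Polynomial k, θ q = (q.map (regConst β P)).eval τ := by
    intro q
    rw [hθdef, RingHom.comp_apply, hf, RingHom.coe_coe, Polynomial.aeval_def,
      Polynomial.hom_eval₂, toReg_comp_algebraMap β P hβk hall, Polynomial.eval_map]
  have hθ : ∀ q : Polynomial k,
      θ q - algebraMap L (regAlg β P) (e (θ q)) ∈ regIdeal e π := by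
    intro q
    have h1 : algebraMap L (regAlg β P) (e (θ q))
        = (q.map (regConst β P)).eval (algebraMap L (regAlg β P) c) := by
      rw [hθeval]
      have h2 : e ((q.map (regConst β P)).eval τ)
          = ((e : regAlg β P →ₐ[L] L) : regAlg β P →+* L) ((q.map (regConst β P)).eval τ) := rfl
      rw [h2, Polynomial.eval_map, Polynomial.hom_eval₂, regEv_comp_regConst]
      have h3 : ((e : regAlg β P →ₐ[L] L) : regAlg β P →+* L) τ = c := rfl
      rw [h3, Polynomial.eval_map]
      have h4 : regConst β P = (algebraMap L (regAlg β P)).comp (algebraMap k L) := rfl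
      rw [h4, ← Polynomial.hom_eval₂]
    rw [h1, hθeval]
    obtain ⟨x₁, hx₁⟩ := Polynomial.sub_dvd_eval_sub τ (algebraMap L (regAlg β P) c)
      (q.map (regConst β P))
    exact ⟨1, x₁, by simp, by rw [mul_one]; exact hx₁⟩
  refine sub_mem_regIdeal_of_taylor (A := Polynomial k) e π hπ θ hθ p (toR u) ?_ ?_
  · have : (p.map θ).eval (toR u) = toR (p.eval₂ f u) := by
      rw [Polynomial.eval_map, hθdef, Polynomial.hom_eval₂]
    rw [this, hpu, map_zero]
    exact zero_mem _
  · have h1 : ((e : regAlg β P →ₐ[L] L) : regAlg β P →+* L).comp θ = ε.comp f := by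
      rw [hθdef, hε, RingHom.comp_assoc]
    have h2 : e (toR u) = ε u := rfl
    rw [h1, h2, Polynomial.derivative_map, Polynomial.eval_map, ← Polynomial.hom_eval₂]
    exact fun h => hderu (hεinj (by rw [h, map_zero]))

include hP hP' hx₀ halg hβk in
/-- **PLEXT, abstract form.**  A place of `F/L` is determined by the values of the functions
`β u`, `u ∈ F₀`. -/
theorem place_ext (hgenF : IntermediateField.adjoin L (Set.range β) = ⊤)
    (hx₀L : ∀ c : L, β x₀ ≠ algebraMap L F c)
    (H : ∀ u c, Val P (β u) c → Val P' (β u) c) : P = P' := by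
  classical
  -- the regular parameter and the key property for the generators
  have hkey : ∃ π : regAlg β P, (π : F) ≠ 0 ∧ regEv β P hP π = 0 ∧
      ∀ (u : F₀) (hu : β u ∈ P.toValuationSubring),
        regElt β P u hu - algebraMap L (regAlg β P) (regEv β P hP (regElt β P u hu))
          ∈ regIdeal (regEv β P hP) π := by
    by_cases hall : ∀ u : F₀, β u ∈ P.toValuationSubring
    · exact key_generic β P hP hx₀ halg hβk hall hx₀L
    · rw [not_forall] at hall
      exact key_algebraic β P hP hx₀ halg hβk hall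
  obtain ⟨π, hπ0, hπ, hgens⟩ := hkey
  -- all elements of `R₀`
  have hallR : ∀ x : regAlg β P,
      x - algebraMap L (regAlg β P) (regEv β P hP x) ∈ regIdeal (regEv β P hP) π := by
    refine sub_mem_regIdeal_of_adjoin (regEv β P hP) π
      ((Subtype.val : regAlg β P → F) ⁻¹' (regSet β P)) ?_ ?_
    · exact Algebra.adjoin_adjoin_coe_preimage
    · rintro ⟨s, hs⟩ ⟨hs1, u, rfl⟩
      exact hgens u hs1
  refine eq_of_regular hP hP' (regAlg β P) (regEv β P hP)
    (fun x => ⟨regEv_val β P hP x, regEv_val' hP' H x⟩)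
    (exists_div_regAlg β P hgenF) π hπ0 hπ ?_
  intro x hx
  have := hallR x
  rw [hx, map_zero, sub_zero] at this
  obtain ⟨B, x₁, hB, h⟩ := this
  exact ⟨B, x₁, hB, congrArg Subtype.val h⟩

end Cases

end Main

end Fermat.Agent.S17.H140
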