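import Fermat.Agent.Lib.RR.Ord
import Fermat.Agent.S37.H100.EvPlace

/-!
# S17 / G-DIV, piece PLEXT, abstract core (helper140)

Two places `P, P'` of degree one of a function field `F/K` coincide as soon as there is a
`K`-subalgebra `R₀ ⊆ O_P ∩ O_P'` with `Frac R₀ = F` on which the two residue maps agree and whose
point `𝔭 = 𝔪_P ∩ R₀` is "regular": `𝔭 (R₀)_𝔭` is generated by one element `π`.

* `Val P x c` : `x ∈ O_P` has the value `c` at `P`;
* `eq_of_regular` : the criterion.
-/

set_option autoImplicit false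

noncomputable section

open AlgebraicCurve

namespace Fermat.Agent.S17.H140

open Fermat.Agent.Lib.RR Fermat.Agent.S37.H100

variable {K F : Type*} [Field K] [Field F] [Algebra K F]

/-- `x` has the value `c` at `P` (recall `ord 0 = 0`). -/
def Val (P : Place K F) (x : F) (c : K) : Prop :=
  x - algebraMap K F c = 0 ∨ 0 < P.ord (x - algebraMap K F c)

namespace Val

variable {P : Place K F}

theorem mem {x : F} {c : K} (h : Val P x c) : x ∈ P.toValuationSubring := by
  have h1 : x - algebraMap K F c ∈ P.toValuationSubring := by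
    rcases h with h | h
    · rw [h]; exact zero_mem _
    · exact mem_of_ord_nonneg P h.le
  have := add_mem h1 (P.algebraMap_mem' c)
  rwa [sub_add_cancel] at this

theorem iff_evPlace (hP : P.deg = 1) {x : F} {c : K} :
    Val P x c ↔ ∃ h : x ∈ P.toValuationSubring, evPlace P hP ⟨x, h⟩ = c := by
  constructor
  · intro h
    exact ⟨h.mem, evPlace_eq_of_sub_mem P hP ⟨x, h.mem⟩ c h⟩
  · rintro ⟨h, rfl⟩
    have := sub_algebraMap_evPlace_mem P hP ⟨x, h⟩
    rw [Fermat.Agent.Lib.RR.mem_maximalIdeal_iff] at this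
    exact this

theorem evPlace_eq (hP : P.deg = 1) {x : F} {c : K} (h : Val P x c) :
    evPlace P hP ⟨x, h.mem⟩ = c :=
  evPlace_eq_of_sub_mem P hP ⟨x, h.mem⟩ c h

theorem of_evPlace (hP : P.deg = 1) (x : P.toValuationSubring) :
    Val P (x : F) (evPlace P hP x) :=
  (iff_evPlace hP).mpr ⟨x.2, rfl⟩

theorem unique (hP : P.deg = 1) {x : F} {c d : K} (h : Val P x c) (h' : Val P x d) : c = d := by
  rw [← h.evPlace_eq hP, ← h'.evPlace_eq hP]

theorem exists_of_mem (hP : P.deg = 1) {x : F} (h : x ∈ P.toValuationSubring) :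
    ∃ c, Val P x c :=
  ⟨_, of_evPlace hP ⟨x, h⟩⟩

theorem add (hP : P.deg = 1) {x y : F} {c d : K} (hx : Val P x c) (hy : Val P y d) :
    Val P (x + y) (c + d) := by
  rw [iff_evPlace hP]
  refine ⟨add_mem hx.mem hy.mem, ?_⟩
  have : (⟨x + y, add_mem hx.mem hy.mem⟩ : P.toValuationSubring)
      = ⟨x, hx.mem⟩ + ⟨y, hy.mem⟩ := rfl
  rw [this, map_add, hx.evPlace_eq hP, hy.evPlace_eq hP]

theorem mul (hP : P.deg = 1) {x y : F} {c d : K} (hx : Val P x c) (hy : Val P y d) :
    Val P (x * y) (c * d) := by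
  rw [iff_evPlace hP]
  refine ⟨mul_mem hx.mem hy.mem, ?_⟩
  have : (⟨x * y, mul_mem hx.mem hy.mem⟩ : P.toValuationSubring)
      = ⟨x, hx.mem⟩ * ⟨y, hy.mem⟩ := rfl
  rw [this, map_mul, hx.evPlace_eq hP, hy.evPlace_eq hP]

theorem algebraMap (P : Place K F) (c : K) : Val P (algebraMap K F c) c :=
  Or.inl (sub_self _)

theorem zero_iff {x : F} : Val P x 0 ↔ x = 0 ∨ 0 < P.ord x := by
  unfold Val
  rw [map_zero, sub_zero]

/-- A function with non-zero value is a unit at `P`. -/
theorem ord_eq_zero (hP : P.deg = 1) {x : F} {c : K} (h : Val P x c) (hc : c ≠ 0) :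
    x ≠ 0 ∧ P.ord x = 0 := by
  have hx0 : x ≠ 0 := by
    rintro rfl
    have h0 : Val P (0 : F) 0 := zero_iff.mpr (Or.inl rfl)
    exact hc (unique hP h h0)
  refine ⟨hx0, ?_⟩
  have h1 : 0 ≤ P.ord x := ord_nonneg_of_mem P h.mem
  rcases h1.lt_or_eq with h2 | h2
  · exact absurd (unique hP h (zero_iff.mpr (Or.inr h2))) hc
  · exact h2.symm

end Val

section Criterion

variable (P P' : Place K F) (hP : P.deg = 1) (hP' : P'.deg = 1)

/-- "`x = π ^ k * (common unit)`". -/
def Good (π : F) (x : F) : Prop :=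
  ∃ (k : ℤ) (y : F), y ≠ 0 ∧ P.ord y = 0 ∧ P'.ord y = 0 ∧ x = π ^ k * y

variable {P P'}

theorem Good.mul {π x y : F} (hπ : π ≠ 0) (hx : Good P P' π x) (hy : Good P P' π y) :
    Good P P' π (x * y) := by
  obtain ⟨k, a, ha0, ha, ha', rfl⟩ := hx
  obtain ⟨l, b, hb0, hb, hb', rfl⟩ := hy
  refine ⟨k + l, a * b, mul_ne_zero ha0 hb0, ?_, ?_, ?_⟩
  · rw [P.ord_mul ha0 hb0, ha, hb, add_zero]
  · rw [P'.ord_mul ha0 hb0, ha', hb', add_zero]
  · rw [zpow_add₀ hπ]; ring

theorem Good.inv {π x : F} (hx : Good P P' π x) : Good P P' π x⁻¹ := by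
  obtain ⟨k, a, ha0, ha, ha', rfl⟩ := hx
  refine ⟨-k, a⁻¹, inv_ne_zero ha0, ?_, ?_, ?_⟩
  · rw [P.ord_inv, ha, neg_zero]
  · rw [P'.ord_inv, ha', neg_zero]
  · rw [mul_inv, zpow_neg]

theorem Good.of_unit {π x : F} (hx0 : x ≠ 0) (hx : P.ord x = 0) (hx' : P'.ord x = 0) :
    Good P P' π x :=
  ⟨0, x, hx0, hx, hx', by simp⟩

theorem Good.self {π : F} : Good P P' π π :=
  ⟨1, 1, one_ne_zero, P.ord_one, P'.ord_one, by simp⟩

theorem Good.ne_zero {π x : F} (hπ : π ≠ 0) (hx : Good P P' π x) : x ≠ 0 := by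
  obtain ⟨k, a, ha0, -, -, rfl⟩ := hx
  exact mul_ne_zero (zpow_ne_zero _ hπ) ha0

theorem Good.ord {π x : F} (hπ : π ≠ 0) (hx : Good P P' π x) :
    ∃ k : ℤ, P.ord x = k * P.ord π ∧ P'.ord x = k * P'.ord π := by
  obtain ⟨k, a, ha0, ha, ha', rfl⟩ := hx
  refine ⟨k, ?_, ?_⟩
  · rw [P.ord_mul (zpow_ne_zero _ hπ) ha0, ha, add_zero, P.ord_zpow]
  · rw [P'.ord_mul (zpow_ne_zero _ hπ) ha0, ha', add_zero, P'.ord_zpow]

include hP hP' in
/-- **Criterion.**  `R₀ ⊆ O_P ∩ O_P'` a subalgebra with `Frac R₀ = F` on which the values at `P`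
and `P'` agree (`e`), and such that the ideal `ker e` becomes principal, generated by `π`, after
inverting the elements with non-zero value.  Then `P = P'`. -/
theorem eq_of_regular (R₀ : Subalgebra K F) (e : R₀ → K)
    (he : ∀ x : R₀, Val P (x : F) (e x) ∧ Val P' (x : F) (e x))
    (hfrac : ∀ x : F, ∃ a b : R₀, (b : F) ≠ 0 ∧ x = (a : F) / (b : F))
    (π : R₀) (hπ0 : (π : F) ≠ 0) (hπ : e π = 0)
    (hI : ∀ x : R₀, e x = 0 → ∃ B x₁ : R₀, e B ≠ 0 ∧ (x : F) * (B : F) = (π : F) * (x₁ : F)) :
    P = P' := by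
  have hπP : 0 < P.ord (π : F) := by
    have := (he π).1
    rw [hπ, Val.zero_iff] at this
    exact this.resolve_left hπ0
  have hπP' : 0 < P'.ord (π : F) := by
    have := (he π).2
    rw [hπ, Val.zero_iff] at this
    exact this.resolve_left hπ0
  -- every non-zero element of `R₀` is good
  have hgoodR : ∀ n : ℕ, ∀ x : R₀, (x : F) ≠ 0 → P.ord (x : F) ≤ n → Good P P' (π : F) (x : F) := by
    intro n
    induction n with
    | zero =>
      intro x hx0 hn
      have h1 : 0 ≤ P.ord (x : F) := ord_nonneg_of_mem P (he x).1.mem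
      have hord : P.ord (x : F) = 0 := le_antisymm (by exact_mod_cast hn) h1
      have hex : e x ≠ 0 := by
        intro h0
        have := (he x).1
        rw [h0, Val.zero_iff] at this
        rcases this with h | h
        · exact hx0 h
        · omega
      exact Good.of_unit hx0 hord ((he x).2.ord_eq_zero hP' hex).2
    | succ n ih =>
      intro x hx0 hn
      by_cases hex : e x = 0
      · obtain ⟨B, x₁, hB, hxB⟩ := hI x hex
        obtain ⟨hB0, hBord⟩ := (he B).1.ord_eq_zero hP hB
        have hBord' := ((he B).2.ord_eq_zero hP' hB).2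
        have hx₁0 : (x₁ : F) ≠ 0 := by
          intro h0
          rw [h0, mul_zero] at hxB
          exact (mul_ne_zero hx0 hB0) hxB
        have hord : P.ord (x : F) + P.ord (B : F) = P.ord (π : F) + P.ord (x₁ : F) := by
          rw [← P.ord_mul hx0 hB0, ← P.ord_mul hπ0 hx₁0, hxB]
        have hx₁n : P.ord (x₁ : F) ≤ n := by
          have : (n : ℤ) + 1 = ((n + 1 : ℕ) : ℤ) := by push_cast; ring
          omega
        have hg₁ := ih x₁ hx₁0 hx₁n
        have hgB : Good P P' (π : F) (B : F) := Good.of_unit hB0 hBord hBord'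
        have hx : (x : F) = (π : F) * (x₁ : F) * (B : F)⁻¹ := by
          rw [← hxB, mul_assoc, mul_inv_cancel₀ hB0, mul_one]
        rw [hx]
        exact ((Good.self).mul hπ0 hg₁).mul hπ0 hgB.inv
      · obtain ⟨-, hord⟩ := (he x).1.ord_eq_zero hP hex
        exact Good.of_unit hx0 hord ((he x).2.ord_eq_zero hP' hex).2
  have hgood : ∀ x : F, x ≠ 0 → Good P P' (π : F) x := by
    intro x hx0
    obtain ⟨a, b, hb0, rfl⟩ := hfrac x
    have ha0 : (a : F) ≠ 0 := by
      intro h
      rw [h, zero_div] at hx0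
      exact hx0 rfl
    have hga := hgoodR (P.ord (a : F)).toNat a ha0 (Int.self_le_toNat _)
    have hgb := hgoodR (P.ord (b : F)).toNat b hb0 (Int.self_le_toNat _)
    rw [div_eq_mul_inv]
    exact hga.mul hπ0 hgb.inv
  apply Place.ext
  ext x
  rcases eq_or_ne x 0 with rfl | hx0
  · simp
  obtain ⟨k, hk, hk'⟩ := (hgood x hx0).ord hπ0
  rw [mem_iff_ord_nonneg, mem_iff_ord_nonneg, hk, hk']
  constructor
  · intro h
    have hk0 : 0 ≤ k := by
      by_contra hneg
      rw [not_le] at hneg
      have := mul_neg_of_neg_of_pos hneg hπP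
      omega
    exact mul_nonneg hk0 hπP'.le
  · intro h
    have hk0 : 0 ≤ k := by
      by_contra hneg
      rw [not_le] at hneg
      have := mul_neg_of_neg_of_pos hneg hπP'
      omega
    exact mul_nonneg hk0 hπP.le

end Criterion

/-! ### The ideal `I` and the Taylor step (pure commutative algebra) -/

section Ideal

variable {K R : Type*} [Field K] [CommRing R] [Algebra K R]

/-- `I = {x : ∃ B x₁, e B ≠ 0 ∧ x B = π x₁}`: the contraction to `R` of the ideal generated by
`π` in the localisation of `R` at the elements with non-zero value. -/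
def regIdeal (e : R →ₐ[K] K) (π : R) : Ideal R where
  carrier := {x | ∃ B x₁ : R, e B ≠ 0 ∧ x * B = π * x₁}
  zero_mem' := ⟨1, 0, by simp, by simp⟩
  add_mem' := by
    rintro x y ⟨B, x₁, hB, hx⟩ ⟨B', y₁, hB', hy⟩
    refine ⟨B * B', x₁ * B' + y₁ * B, by rw [map_mul]; exact mul_ne_zero hB hB', ?_⟩
    linear_combination B' * hx + B * hy
  smul_mem' := by
    rintro r x ⟨B, x₁, hB, hx⟩
    refine ⟨B, r * x₁, hB, ?_⟩
    rw [smul_eq_mul]
    linear_combination r * hx

theorem mem_regIdeal {e : R →ₐ[K] K} {π x : R} :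
    x ∈ regIdeal e π ↔ ∃ B x₁ : R, e B ≠ 0 ∧ x * B = π * x₁ := Iff.rfl

theorem self_mem_regIdeal (e : R →ₐ[K] K) (π : R) : π ∈ regIdeal e π :=
  ⟨1, 1, by simp, by simp⟩

theorem regIdeal_le_ker {e : R →ₐ[K] K} {π : R} (hπ : e π = 0) {x : R}
    (hx : x ∈ regIdeal e π) : e x = 0 := by
  obtain ⟨B, x₁, hB, h⟩ := hx
  have := congrArg e h
  rw [map_mul, map_mul, hπ, zero_mul] at this
  exact (mul_eq_zero.mp this).resolve_right hB

/-- `I` is saturated with respect to the elements of non-zero value. -/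
theorem mem_regIdeal_of_mul {e : R →ₐ[K] K} {π x B : R} (hB : e B ≠ 0)
    (h : x * B ∈ regIdeal e π) : x ∈ regIdeal e π := by
  obtain ⟨B', x₁, hB', hx⟩ := h
  exact ⟨B * B', x₁, by rw [map_mul]; exact mul_ne_zero hB hB', by rw [← mul_assoc]; exact hx⟩

/-- If `s - e s ∈ I` for the generators `s` of the `K`-algebra `R`, then for all elements. -/
theorem sub_mem_regIdeal_of_adjoin (e : R →ₐ[K] K) (π : R) (S : Set R)
    (hS : Algebra.adjoin K S = ⊤)
    (h : ∀ s ∈ S, s - algebraMap K R (e s) ∈ regIdeal e π) (x : R) :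
    x - algebraMap K R (e x) ∈ regIdeal e π := by
  have hx : x ∈ Algebra.adjoin K S := by rw [hS]; exact Algebra.mem_top
  induction hx using Algebra.adjoin_induction with
  | mem s hs => exact h s hs
  | algebraMap r =>
    rw [AlgHom.commutes, Algebra.algebraMap_self_apply, sub_self]
    exact zero_mem _
  | add x y _ _ hx hy =>
    have : x + y - algebraMap K R (e (x + y))
        = (x - algebraMap K R (e x)) + (y - algebraMap K R (e y)) := by
      rw [map_add, map_add]; ring
    rw [this]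
    exact add_mem hx hy
  | mul x y _ _ hx hy =>
    have : x * y - algebraMap K R (e (x * y))
        = (x - algebraMap K R (e x)) * y + algebraMap K R (e x) * (y - algebraMap K R (e y)) := by
      rw [map_mul, map_mul]; ring
    rw [this]
    exact add_mem (Ideal.mul_mem_right _ _ hx) (Ideal.mul_mem_left _ _ hy)

/-- Evaluation of a polynomial all of whose coefficients lie in an ideal. -/
theorem eval_mem_of_coeff_mem (I : Ideal R) (p : Polynomial R) (h : ∀ i, p.coeff i ∈ I)
    (x : R) : p.eval x ∈ I := by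
  rw [Polynomial.eval_eq_sum_range]
  exact Ideal.sum_mem _ fun i _ => Ideal.mul_mem_right _ _ (h i)

/-- **Taylor step.**  `θ : A → R` a ring homomorphism with `θ a ≡ e (θ a)` modulo `I`,
`p ∈ A[X]`, `υ ∈ R` with `p^θ(υ) ∈ I`.  If the derivative of `p^{e ∘ θ}` does not vanish at
`e υ`, then `υ - e υ ∈ I`. -/
theorem sub_mem_regIdeal_of_taylor {A : Type*} [CommRing A] (e : R →ₐ[K] K) (π : R)
    (hπ : e π = 0) (θ : A →+* R)
    (hθ : ∀ a, θ a - algebraMap K R (e (θ a)) ∈ regIdeal e π)
    (p : Polynomial A) (υ : R) (hp : (p.map θ).eval υ ∈ regIdeal e π)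
    (hder : ((p.map ((e : R →+* K).comp θ)).derivative).eval (e υ) ≠ 0) :
    υ - algebraMap K R (e υ) ∈ regIdeal e π := by
  set I := regIdeal e π
  set d : R := algebraMap K R (e υ) with hd
  -- the polynomial with constant coefficients
  set Phat : Polynomial R := p.map ((algebraMap K R).comp ((e : R →+* K).comp θ)) with hPhat
  have hdiff : ((p.map θ) - Phat).eval υ ∈ I := by
    apply eval_mem_of_coeff_mem
    intro i
    rw [Polynomial.coeff_sub, hPhat, Polynomial.coeff_map, Polynomial.coeff_map]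
    exact hθ (p.coeff i)
  have hPhatυ : Phat.eval υ ∈ I := by
    have : Phat.eval υ = (p.map θ).eval υ - ((p.map θ) - Phat).eval υ := by
      rw [Polynomial.eval_sub]; ring
    rw [this]
    exact sub_mem hp hdiff
  -- Taylor expansion at `d`
  obtain ⟨k, hk⟩ := Polynomial.binomExpansion Phat d (υ - d)
  rw [add_sub_cancel] at hk
  have hmapK : Phat = (p.map ((e : R →+* K).comp θ)).map (algebraMap K R) := by
    rw [hPhat, Polynomial.map_map]
  have hevald : Phat.eval d = algebraMap K R ((p.map ((e : R →+* K).comp θ)).eval (e υ)) := by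
    rw [hmapK, hd, Polynomial.eval_map, Polynomial.eval₂_at_apply]
  have hderd : Phat.derivative.eval d
      = algebraMap K R (((p.map ((e : R →+* K).comp θ)).derivative).eval (e υ)) := by
    rw [hmapK, hd, Polynomial.derivative_map, Polynomial.eval_map, Polynomial.eval₂_at_apply]
  have hed : e d = e υ := by rw [hd, AlgHom.commutes, Algebra.algebraMap_self_apply]
  -- the constant term vanishes
  have h0 : (p.map ((e : R →+* K).comp θ)).eval (e υ) = 0 := by
    have h1 := regIdeal_le_ker hπ hPhatυ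
    rw [hk, map_add, map_add, map_mul, map_mul, map_pow, map_sub, hed, sub_self, mul_zero,
      zero_pow (by norm_num), mul_zero, add_zero, add_zero, hevald, AlgHom.commutes,
      Algebra.algebraMap_self_apply] at h1
    exact h1
  rw [hevald, h0, map_zero, zero_add] at hk
  have hprod : (υ - d) * (Phat.derivative.eval d + k * (υ - d)) ∈ I := by
    have : (υ - d) * (Phat.derivative.eval d + k * (υ - d)) = Phat.eval υ := by
      rw [hk]; ring
    rw [this]
    exact hPhatυ
  refine mem_regIdeal_of_mul ?_ hprod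
  rw [map_add, map_mul, map_sub, hed, sub_self, mul_zero, add_zero, hderd, AlgHom.commutes,
    Algebra.algebraMap_self_apply]
  exact hder

end Ideal

end Fermat.Agent.S17.H140
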