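import Fermat.Agent.S17.H140.InertiaLift

/-!
# S17 / W-HM, part (1) (helper140): inertia-unramified implies `ℓ ∤ disc`

`not_dvd_discr_of_unramifiedAt`: let `K ⊆ ℚ̄` be a number field such that every inertia subgroup
(Prelude `ValuationSubring.inertiaSubgroupIn`) of every valuation subring of `ℚ̄` above the prime
`ℓ` fixes `K` pointwise (= `Skel.UnramifiedAt K ℓ` of the S17 skeleton, unfolded).  Then
`ℓ ∤ disc K`.
-/

set_option autoImplicit false

namespace Fermat.Agent.S17.H140

open NumberField

/-- Inertia-unramified at `ℓ` (in the sense of the Prelude inertia subgroups of valuation subrings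
of `ℚ̄`) implies that `ℓ` does not divide the discriminant. -/
theorem not_dvd_discr_of_unramifiedAt (K : IntermediateField ℚ Qb) [NumberField K]
    (ℓ : ℕ) (hℓ : ℓ.Prime)
    (hK : ∀ A : ValuationSubring Qb, A.LiesOverPrime ℓ →
      ∀ σ ∈ A.inertiaSubgroupIn ℚ, ∀ a ∈ K, σ a = a) :
    ¬ (ℓ : ℤ) ∣ NumberField.discr K := by
  -- the Galois closure
  let L : IntermediateField ℚ Qb := IntermediateField.normalClosure ℚ K Qb
  have hKL : K ≤ L := IntermediateField.le_normalClosure K
  have hfd : FiniteDimensional ℚ L := inferInstance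
  have hnf : NumberField L := ⟨⟩
  have hnormQb : Normal ℚ Qb := IsAlgClosure.normal ℚ Qb
  have hnorm : Normal ℚ L := normalClosure.normal ℚ K Qb
  have hgal : IsGalois ℚ L := ⟨⟩
  let K' : IntermediateField ℚ L := IntermediateField.restrict hKL
  let e : K ≃ₐ[ℚ] K' := IntermediateField.restrictAlgEquiv hKL
  rw [NumberField.discr_eq_discr_of_algEquiv K e]
  refine not_dvd_discr_of_inertia L K' ℓ hℓ ?_
  intro P hP hℓP τ hτ a ha
  obtain ⟨A, σ, hA, hσ, hστ⟩ := exists_inertia_lift L ℓ hℓ P hP hℓP τ hτ
  have haK : (a : Qb) ∈ K := by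
    have := (IntermediateField.mem_restrict hKL a).mp ha
    exact this
  have h1 := hK A hA σ hσ (a : Qb) haK
  rw [hστ a] at h1
  exact Subtype.ext h1

end Fermat.Agent.S17.H140
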