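import Fermat.Agent.S17.H140.ZRatAlg
import Fermat.Agent.S17.H140.CuspRat
import Fermat.Agent.S18.H739.ModFinite
import Fermat.Agent.S18.H516.GaussBC
import Fermat.Agent.S29.H32.CoeffDescent
import Fermat.Agent.S37.H100.EvPlace

/-!
# S17 / G-DIV, piece ZRAT (helper140)

`StmtZRAT`: if `f ∈ F_L` has all its `q`-coefficients in a subfield `K₁ ⊆ L` which is
algebraically closed in `L`, then every zero and every pole of `f` is rational over `K₁`.

Proof.  `f` comes from `g ∈ F_{K₁}` (descent of constants, `S29/H32`), and `F_{K₁}` is algebraic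
over `K₁(j)` (`S18/H739`).  For `u` with rational `q`-expansion, `u` and `g` satisfy a
polynomial relation `G(u, g) = 0` over `K₁`; dividing by the exact power of the second variable
and reducing at the place `P` (where `g` or `g⁻¹` vanishes) we get a non-zero polynomial over
`K₁` killing the value `u(P)`.
-/

set_option autoImplicit false
set_option linter.unusedSectionVars false

noncomputable section

open AlgebraicCurve ModularCurve Polynomial IntermediateField

namespace Fermat.Agent.S17.H140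

open Fermat.Agent.Lib.RR Fermat.Agent.S17.GDiv

section BC

variable (N : ℕ) [NeZero N] {L : Type} [Field L] [Algebra ℚ L] [CharZero L] (K₁ : Subfield L)

/-- The function field of `X₀(N)` over the subfield `K₁`. -/
abbrev FK : IntermediateField K₁ (LaurentSeries K₁) :=
  laurentBaseChange K₁ (modularFunctionFieldFull N)

theorem coeffMap_mem_FL {x : LaurentSeries K₁} (hx : x ∈ FK N K₁) :
    coeffMap (algebraMap K₁ L) x ∈ FL N L :=
  Fermat.Agent.S29.H32.coeffMap_mem_laurentBaseChange_of_mem (modularFunctionFieldFull N) hx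

/-- Base change of functions `F_{K₁} → F_L` (coefficientwise). -/
def bcK : FK N K₁ →+* FL N L where
  toFun x := ⟨coeffMap (algebraMap K₁ L) (x : LaurentSeries K₁), coeffMap_mem_FL N K₁ x.2⟩
  map_one' := by
    apply Subtype.ext
    simp
  map_mul' x y := by
    apply Subtype.ext
    simp
  map_zero' := by
    apply Subtype.ext
    simp
  map_add' x y := by
    apply Subtype.ext
    simp

@[simp]
theorem coe_bcK (x : FK N K₁) :
    ((bcK N K₁ x : FL N L) : LaurentSeries L) = coeffMap (algebraMap K₁ L) (x : LaurentSeries K₁) :=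
  rfl

theorem bcK_algebraMap (a : K₁) :
    bcK N K₁ (algebraMap K₁ (FK N K₁) a) = algebraMap L (FL N L) (a : L) := by
  apply Subtype.ext
  rw [coe_bcK]
  exact Fermat.Agent.S29.H32.coeffMap_algebraMap_up a

/-- The function `u` with rational `q`-expansion, over `K₁`. -/
def bcQK (u : modularFunctionFieldFull N) : FK N K₁ :=
  ⟨coeffEmb K₁ (u : LaurentSeries ℚ), coeffEmb_mem_laurentBaseChange K₁ u.2⟩

theorem bcK_bcQK (u : modularFunctionFieldFull N) :
    bcK N K₁ (bcQK N K₁ u) = bcQ N L u := by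
  apply Subtype.ext
  rw [coe_bcK, coe_bcQ]
  exact Fermat.Agent.S29.H32.coeffMap_coeffEmb_up (k := K₁) (Ω := L) (u : LaurentSeries ℚ)

/-- Descent of constants: a function over `L` with coefficients in `K₁` comes from `F_{K₁}`. -/
theorem exists_bcK_eq {f : FL N L} (hf : CoeffsIn K₁ f) : ∃ g : FK N K₁, bcK N K₁ g = f := by
  obtain ⟨y, hy, hyf⟩ := Fermat.Agent.S29.H32.exists_of_coeff_mem_range (k := K₁) (Ω := L)
    (modularFunctionFieldFull N) f.2 (fun n => ⟨⟨_, hf n⟩, rfl⟩)
  exact ⟨⟨y, hy⟩, Subtype.ext hyf⟩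

/-- `j ∈ F_{K₁}`. -/
def jK : FK N K₁ := bcQK N K₁ (jQ N)

/-- Transport of "transcendental + finite" along an equality of intermediate fields. -/
theorem transport_aux {K M : Type*} [Field K] [Field M] [Algebra K M]
    (E₁ E₂ : IntermediateField K M) (h : E₁ = E₂) (x : M) (hx₁ : x ∈ E₁) (hx₂ : x ∈ E₂)
    (H : Transcendental K (⟨x, hx₂⟩ : E₂) ∧ FiniteDimensional K⟮(⟨x, hx₂⟩ : E₂)⟯ E₂) :
    Transcendental K (⟨x, hx₁⟩ : E₁) ∧ FiniteDimensional K⟮(⟨x, hx₁⟩ : E₁)⟯ E₁ := by
  subst h
  exact H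

theorem jK_spec : Transcendental K₁ (jK N K₁) ∧ FiniteDimensional K₁⟮jK N K₁⟯ (FK N K₁) := by
  have hchar : ∀ p : ℕ, p.Prime → p ∣ N → ((p : ℕ) : K₁) ≠ 0 := fun p hp _ =>
    Nat.cast_ne_zero.mpr hp.ne_zero
  have hj : coeffEmb K₁ jq = jqModC K₁ := by
    rw [coeffEmb, ← jqModC_rat, coeffMap_jqModC]
  have H := transport_aux (FK N K₁) (modularFunctionFieldFullC K₁ N)
    (Fermat.Agent.S18.H516.baseChange_eq_fullC K₁ N) (jqModC K₁)
    (by rw [← hj]; exact (jK N K₁).2) (jqModC_mem_full K₁ N)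
    ⟨Fermat.Agent.S18.H739.transcendental_jC K₁ N,
      Fermat.Agent.S18.H739.finiteDimensional_adjoin_jC K₁ N hchar⟩
  have hjK : jK N K₁ = ⟨jqModC K₁, by rw [← hj]; exact (jK N K₁).2⟩ := Subtype.ext hj
  rw [hjK]
  exact H

end BC

section Main

variable {N : ℕ} [NeZero N] {L : Type} [Field L] [Algebra ℚ L] [CharZero L] [FF1 L (FL N L)]

/-- A finite value gives membership in the valuation ring. -/
theorem mem_of_hasValue {P : Place L (FL N L)} {f : FL N L} {c : L} (h : HasValue P f c) :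
    f ∈ P.toValuationSubring := by
  have h1 : f - algebraMap L (FL N L) c ∈ P.toValuationSubring := by
    rcases h with h | h
    · rw [h]; exact zero_mem _
    · exact mem_of_ord_nonneg P h.le
  have := add_mem h1 (P.algebraMap_mem' c)
  rwa [sub_add_cancel] at this

set_option synthInstance.maxHeartbeats 200000 in
set_option maxHeartbeats 1000000 in
/-- Key step of ZRAT: if `g ∈ F_{K₁}` vanishes at `P`, then every finite value at `P` of a
function defined over `K₁` is algebraic over `K₁`. -/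
theorem isAlgebraic_value (K₁ : Subfield L) (P : Place L (FL N L)) (g u₁ : FK N K₁)
    (hg : 0 < P.ord (bcK N K₁ g)) {c : L} (hu : HasValue P (bcK N K₁ u₁) c) :
    IsAlgebraic K₁ c := by
  classical
  obtain ⟨htr, hfin⟩ := jK_spec N K₁
  have halg : Algebra.IsAlgebraic K₁⟮jK N K₁⟯ (FK N K₁) := Algebra.IsAlgebraic.of_finite _ _
  obtain ⟨G, hG0, hG⟩ := exists_dependence (K := K₁) (F := FK N K₁) htr halg u₁ g
  -- transport the relation to `F_L`
  set φ : K₁ →+* FL N L := (algebraMap L (FL N L)).comp (algebraMap K₁ L) with hφdef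
  have hcomp : (bcK N K₁).comp ((aeval u₁ : Polynomial K₁ →ₐ[K₁] FK N K₁) : Polynomial K₁ →+* _)
      = eval₂RingHom φ (bcK N K₁ u₁) := by
    apply Polynomial.ringHom_ext
    · intro a
      simp only [RingHom.coe_comp, RingHom.coe_coe, Function.comp_apply, aeval_C,
        coe_eval₂RingHom, eval₂_C, hφdef]
      exact bcK_algebraMap N K₁ a
    · simp
  have hrel : G.eval₂ (eval₂RingHom φ (bcK N K₁ u₁)) (bcK N K₁ g) = 0 := by
    have := hom_eval₂ G ((aeval u₁ : Polynomial K₁ →ₐ[K₁] FK N K₁) : Polynomial K₁ →+* _)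
      (bcK N K₁) g
    rw [hG, map_zero, hcomp] at this
    exact this.symm
  -- reduce at `P`
  have hdeg : P.deg = 1 := deg_eq_one P
  have hφO : ∀ a, φ a ∈ P.toValuationSubring.toSubring := fun a => P.algebraMap_mem' _
  have huO : bcK N K₁ u₁ ∈ P.toValuationSubring.toSubring := mem_of_hasValue hu
  have hgO : bcK N K₁ g ∈ P.toValuationSubring.toSubring := mem_of_ord_nonneg P hg.le
  have hg0 : bcK N K₁ g ≠ 0 := by
    intro h
    rw [h] at hg
    simp at hg
  have hevg : Fermat.Agent.S37.H100.evPlace P hdeg ⟨bcK N K₁ g, hgO⟩ = 0 := by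
    rw [Fermat.Agent.S37.H100.evPlace_eq_zero_iff_ord]
    exact Or.inr hg
  obtain ⟨h, h0, hh⟩ := exists_root_of_relation P.toValuationSubring.toSubring
    (Fermat.Agent.S37.H100.evPlace P hdeg) φ hφO huO hgO hg0 hevg hG0 hrel
  have hevu : Fermat.Agent.S37.H100.evPlace P hdeg ⟨bcK N K₁ u₁, huO⟩ = c :=
    Fermat.Agent.S37.H100.evPlace_eq_of_sub_mem P hdeg ⟨bcK N K₁ u₁, huO⟩ c hu
  have hevφ : (Fermat.Agent.S37.H100.evPlace P hdeg).comp
      (φ.codRestrict P.toValuationSubring.toSubring hφO) = algebraMap K₁ L := by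
    ext a
    exact Fermat.Agent.S37.H100.evPlace_algebraMap P hdeg (a : L)
  rw [hevu, hevφ] at hh
  exact ⟨h, h0, hh⟩

/-- **ZRAT**: zeros and poles of functions with coefficients in `K₁` are rational over `K₁`. -/
theorem stmtZRAT : StmtZRAT N L := by
  intro K₁ hK f hf P hP u c hval
  apply hK
  obtain ⟨g, hg⟩ := exists_bcK_eq N K₁ hf
  rw [← bcK_bcQK N K₁ u] at hval
  rcases lt_or_gt_of_ne hP with hneg | hpos
  · -- a pole: use `g⁻¹`
    refine isAlgebraic_value K₁ P g⁻¹ (bcQK N K₁ u) ?_ hval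
    rw [map_inv₀, hg, Place.ord_inv]
    omega
  · exact isAlgebraic_value K₁ P g (bcQK N K₁ u) (by rw [hg]; exact hpos) hval

end Main

end Fermat.Agent.S17.H140
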